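import Fermat.Agent.S44.SP.Desc.VVW
import Fermat.Agent.S44.Geo.TlVal
import Fermat.Agent.S44.Geo.NodeAux
import Fermat.Agent.S35.TorDesc

/-!
# S44 / SP-DESC, key (K2) : `red (W₂ u1) = ub(Q²)`          (statements: helper10; keys `S44/DESC-K2a .. K2d`, one theorem = one key)

`N` odd, `S0 : Setup (N * 2) q 2 A`, `W = Wq h` on `FN (N * 2)`, `L = N * 2 * q`.  `v0 ∈ Vinf A (N * q)` (NO `2` in the level), `u1 ∈ Vinf A (N * 2)` with the same reduction `ub`.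

* **K2a** `exists_W'` (~60 lines): `Geo.tlv_exists_W (n := N * 2 * q) (M := N * q) (q := 2) (by ring) hc'` gives `W'` with `hW1` (= the third clause) and `hW2`;
  the first two clauses are proved exactly as in `Geo.tlv_exists_W'` (copy its proof with `M1 := N`, `q := 2`, `l := q`).
* **K2b** `exists_e'` (~100 lines): as in `S34.Mod.exists_e`: `a := α_q t1 (= tM)`, `b := β_q t1 (= tQ)`, `y := a - b^q`, `y' := b - a^q`, `e := y / (y + y')`; `t̄ = tq k 2`;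
  `r1 a = t̄`, `r1 b = t̄^q`, `r2 a = t̄^q`, `r2 b = t̄`; `r2 y = 0`, `r1 (y + y') = r2 (y + y') = t̄ - t̄^(q²) ≠ 0`: `e ∈ V2`, `r2 e = 0`.
  `W' a = α_q (W t1) = c / a`, `W' b = c / b` (`Wq_tauF`: `W t1 * t1 = c`, `c = ± 2^12`), `c̄ := residue c ≠ 0`, `c̄^q = c̄` (`c ∈ ℤ`, `CharP k q`: `ZMod.pow_card`/`frobenius_intCast`).
  `resInf (W' y') = c̄ / t̄^q - c̄^q / t̄^q = 0`,  `resInf (W' y) = c̄ / t̄ - c̄^q / t̄^(q²) ≠ 0` (multiply by `t̄^(q²)`: `evk_injective`).  So `W' e = W' y / (W' y + W' y') ∈ Vinf`, `resInf = 1`.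
* **K2c** `resInf_W'_eq_zero` (~80 lines): as in `Geo.exists_lift1` (`absorbAux_scale`, `exists_smul_of_resInf_eq_zero`, `Arch.arch`): `x := e^(n+1) * δ ∈ V2`, `r1 x = 0` (`resInf δ = 0`), `r2 x = 0`.
  `V2_ker` : `x = a * y`, `a ∈ 𝔪`, `y ∈ V2`.  `W' x = a * W' y`, `W' y ∈ V2 ≤ Vinf` (`W'_mem_V2`): `resInf (W' x) = 0` (`resInf_smul_eq_zero`).
  `W' δ = ((W' e)⁻¹)^(n+1) * W' x` and `(W' e)⁻¹ ∈ Vinf` (`inv_mem_Vinf`).
* **K2d** `resInf_Wq_u1` (~80 lines): `a1 := α_q u1`, `a0 := S35.incl (Descent.bar_le ⟨2, by ring⟩) v0 : FN L` (`S35.coe_incl`: same `q`-expansion; `IsQuo` only sees the `q`-expansion, so `a0 ∈ Vinf A L` with the same `resInf`),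
  `δ := a1 - a0`, `resInf δ = 0` (`resInf_alpha`).  `W' δ = α_q (W u1) - W' a0`, `coe (W' a0) = qExpand Kb 2 (coe v0)`: if `IsQuo v0 y1 y2` then `IsQuo (W' a0) (qExpand A 2 y1) (qExpand A 2 y2)` (as `IsQuo.beta`), `resInf (W' a0) = qExpand k 2 ub` (`red_qExpand`).
-/

set_option autoImplicit false
set_option synthInstance.maxHeartbeats 400000

open HahnSeries ModularCurve AlgebraicCurve Polynomial Fermat.Agent.S24 Fermat.Agent.S29
  Fermat.Agent.S18 Fermat.Agent.ES Fermat.Agent.ES.Alg Fermat.Agent.S34.Mod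

noncomputable section

namespace Fermat.Agent.S44.SP.Desc

variable {N q : ℕ} [NeZero N] [NeZero q] {A : ValuationSubring Kb}

/-- [K2a] the Atkin-Lehner involution at `2` on `FN (N * 2 * q)` -/
theorem exists_W' (hq : q.Prime) (hq2 : q ≠ 2) (hqN : ¬ q ∣ N) (h : Nat.Coprime 2 N) :
    ∃ W' : FN (N * 2 * q) ≃ₐ[Kb] FN (N * 2 * q),
      (∀ x : FN (N * 2), W' (heckeAlphaBar Kb (N * 2) q x) = heckeAlphaBar Kb (N * 2) q (Wq h x)) ∧
      (∀ x : FN (N * 2), W' (heckeBetaBar Kb (N * 2) q x) = heckeBetaBar Kb (N * 2) q (Wq h x)) ∧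
      (∀ (f : FN (N * q)) (x : FN (N * 2 * q)), (x : LaurentSeries Kb) = (f : LaurentSeries Kb) →
        ((W' x : FN (N * 2 * q)) : LaurentSeries Kb) = qExpand Kb 2 (f : LaurentSeries Kb)) := by
  have hc' : Nat.Coprime 2 (N * q) :=
    Nat.Coprime.mul_right h ((Nat.coprime_primes Nat.prime_two hq).2 (Ne.symm hq2))
  obtain ⟨W', hW1, hW2⟩ := Geo.tlv_exists_W (n := N * 2 * q) (M := N * q) (q := 2) (by ring) hc'
  refine ⟨W', fun x => ?_, fun x => ?_, hW1⟩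
  · refine induction_alpha_beta Nat.prime_two (P := fun x => W' (heckeAlphaBar Kb (N * 2) q x) =
      heckeAlphaBar Kb (N * 2) q (Wq h x)) ?_ ?_ ?_ ?_ ?_ x
    · intro f
      apply Subtype.ext
      rw [hW1 (heckeAlphaBar Kb N q f) _ (by simp only [coe_heckeAlphaBar]), Wq_alpha]
      simp only [coe_heckeAlphaBar, coe_heckeBetaBar]
    · intro f
      apply Subtype.ext
      rw [hW2 (heckeAlphaBar Kb N q f) _
        (by simp only [coe_heckeAlphaBar, coe_heckeBetaBar]), Wq_beta]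
      simp only [coe_heckeAlphaBar]
    · intro x y hx hy
      simp only [map_add, hx, hy]
    · intro x y hx hy
      simp only [map_mul, hx, hy]
    · intro x hx
      simp only [map_inv₀, hx]
  · refine induction_alpha_beta Nat.prime_two (P := fun x => W' (heckeBetaBar Kb (N * 2) q x) =
      heckeBetaBar Kb (N * 2) q (Wq h x)) ?_ ?_ ?_ ?_ ?_ x
    · intro f
      apply Subtype.ext
      rw [hW1 (heckeBetaBar Kb N q f) _
        (by simp only [coe_heckeAlphaBar, coe_heckeBetaBar]), Wq_alpha]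
      simp only [coe_heckeBetaBar]
      exact Geo.tlv_qExpand_comm 2 q _
    · intro f
      apply Subtype.ext
      rw [hW2 (heckeBetaBar Kb N q f) _
        (by simp only [coe_heckeBetaBar]; exact Geo.tlv_qExpand_comm q 2 _), Wq_beta]
      simp only [coe_heckeAlphaBar, coe_heckeBetaBar]
    · intro x y hx hy
      simp only [map_add, hx, hy]
    · intro x y hx hy
      simp only [map_mul, hx, hy]
    · intro x hx
      simp only [map_inv₀, hx]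

/-- [K2b] -/
theorem exists_e' (S0 : Setup (N * 2) q 2 A) (hq2 : q ≠ 2) (h : Nat.Coprime 2 N)
    (W' : FN (N * 2 * q) ≃ₐ[Kb] FN (N * 2 * q))
    (hWa : ∀ x : FN (N * 2), W' (heckeAlphaBar Kb (N * 2) q x) =
      heckeAlphaBar Kb (N * 2) q (Wq h x))
    (hWb : ∀ x : FN (N * 2), W' (heckeBetaBar Kb (N * 2) q x) =
      heckeBetaBar Kb (N * 2) q (Wq h x)) :
    ∃ e : V2 A S0.hc, r2 A S0.hc e = 0 ∧
      ∃ hW : W' (e : FN (N * 2 * q)) ∈ Vinf A (N * 2 * q), resInf A (N * 2 * q) ⟨_, hW⟩ = 1 := by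
  have : CharP (kA A) q := charP_kA S0.hq S0.hA
  set t : LaurentSeries (kA A) := tq (kA A) 2 with ht
  let a : V2 A S0.hc := ⟨_, alpha_mem_V2 S0 (t1_mem_Vinf S0)⟩
  let b : V2 A S0.hc := ⟨_, beta_mem_V2 S0 (t1_mem_Vinf S0)⟩
  have h1a : r1 A S0.hc a = t := (r1_alpha S0 ⟨_, t1_mem_Vinf S0⟩).trans (resInf_t1 S0)
  have h2b : r2 A S0.hc b = t := (r2_beta S0 ⟨_, t1_mem_Vinf S0⟩).trans (resInf_t1 S0)
  have h1b : r1 A S0.hc b = t ^ q := by
    rw [← qExpand_tq (r := 2) (kA A) S0.hq, ← resInf_t1 S0]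
    exact r1_beta S0 ⟨_, t1_mem_Vinf S0⟩
  have h2a : r2 A S0.hc a = t ^ q := by
    rw [← qExpand_tq (r := 2) (kA A) S0.hq, ← resInf_t1 S0]
    exact r2_alpha S0 ⟨_, t1_mem_Vinf S0⟩
  have hd : t - (t ^ q) ^ q ≠ 0 := by
    have h1 : t - (t ^ q) ^ q = evk (kA A) 2 (X - (X ^ q) ^ q) := by
      rw [map_sub, map_pow, map_pow, evk, coe_eval₂RingHom, eval₂_X]
    rw [h1]
    refine (map_ne_zero_iff _ (evk_injective _ 2)).2 fun h => ?_
    have h2 := congrArg (fun p => p.coeff 1) h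
    have hq2 : q * q ≠ 1 := by
      have := S0.hq.two_le
      nlinarith
    simp only [← pow_mul, Polynomial.coeff_sub, coeff_X_one, coeff_X_pow,
      Polynomial.coeff_zero] at h2
    rw [if_neg (Ne.symm hq2), sub_zero] at h2
    exact one_ne_zero h2
  have ht0 : t ≠ 0 := by
    intro h0
    have := order_tq_neg (kA A) 2
    rw [← ht, h0, HahnSeries.order_zero] at this
    exact lt_irrefl _ this
  set y : V2 A S0.hc := a - b ^ q with hy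
  set y' : V2 A S0.hc := b - a ^ q with hy'
  have r1y : r1 A S0.hc y = t - (t ^ q) ^ q := by rw [hy, map_sub, map_pow, h1a, h1b]
  have r2y : r2 A S0.hc y = 0 := by rw [hy, map_sub, map_pow, h2a, h2b, sub_self]
  have r1y' : r1 A S0.hc y' = 0 := by rw [hy', map_sub, map_pow, h1a, h1b, sub_self]
  have r2y' : r2 A S0.hc y' = t - (t ^ q) ^ q := by rw [hy', map_sub, map_pow, h2a, h2b]
  have r1s : r1 A S0.hc (y + y') = t - (t ^ q) ^ q := by rw [map_add, r1y, r1y', add_zero]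
  have r2s : r2 A S0.hc (y + y') = t - (t ^ q) ^ q := by rw [map_add, r2y, r2y', zero_add]
  have hinv := inv_mem_V2 (x := y + y') (by rw [r1s]; exact hd) (by rw [r2s]; exact hd)
  refine ⟨y * ⟨_, hinv⟩, by rw [map_mul, r2y, zero_mul], ?_⟩
  obtain ⟨s, c, hs, hc0, hcq, hrs⟩ := exists_Wq_t1 S0 hq2 h
  let a' : Vinf A (N * 2 * q) := ⟨heckeAlphaBar Kb (N * 2) q s, alpha_mem_Vinf s.2⟩
  let b' : Vinf A (N * 2 * q) := ⟨heckeBetaBar Kb (N * 2) q s, beta_mem_Vinf s.2⟩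
  have ha' : W' (a : FN (N * 2 * q)) = a' := by
    show W' (heckeAlphaBar Kb (N * 2) q S0.t1) = heckeAlphaBar Kb (N * 2) q s
    rw [hWa, hs]
  have hb' : W' (b : FN (N * 2 * q)) = b' := by
    show W' (heckeBetaBar Kb (N * 2) q S0.t1) = heckeBetaBar Kb (N * 2) q s
    rw [hWb, hs]
  have ra' : resInf A (N * 2 * q) a' = HahnSeries.C c * t⁻¹ := (resInf_alpha s).trans hrs
  have rb' : resInf A (N * 2 * q) b' = HahnSeries.C c * (t ^ q)⁻¹ := by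
    refine (resInf_beta s).trans ?_
    rw [hrs, map_mul, qExpand_C, map_inv₀, qExpand_tq (r := 2) (kA A) S0.hq]
  have rz' : resInf A (N * 2 * q) (b' - a' ^ q) = 0 := by
    rw [map_sub, map_pow, ra', rb', mul_pow, ← map_pow, hcq, inv_pow, sub_self]
  have rz : resInf A (N * 2 * q) (a' - b' ^ q) = HahnSeries.C c * (t⁻¹ - ((t ^ q) ^ q)⁻¹) := by
    rw [map_sub, map_pow, ra', rb', mul_pow, ← map_pow, hcq, inv_pow, mul_sub]
  have hC0 : (HahnSeries.C c : LaurentSeries (kA A)) ≠ 0 :=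
    (map_ne_zero_iff _ HahnSeries.C_injective).2 hc0
  have rz0 : resInf A (N * 2 * q) (a' - b' ^ q) ≠ 0 := by
    rw [rz]
    refine mul_ne_zero hC0 ?_
    intro h0
    rw [sub_eq_zero, inv_inj] at h0
    exact hd (sub_eq_zero.2 h0)
  have rs : resInf A (N * 2 * q) ((a' - b' ^ q) + (b' - a' ^ q)) =
      resInf A (N * 2 * q) (a' - b' ^ q) := by rw [map_add, rz', add_zero]
  have hi := inv_mem_Vinf (x := (a' - b' ^ q) + (b' - a' ^ q)) (by rw [rs]; exact rz0)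
  have hs0 : (((a' - b' ^ q) + (b' - a' ^ q) : Vinf A (N * 2 * q)) : FN (N * 2 * q)) ≠ 0 := by
    intro h0
    have h2 : ((a' - b' ^ q) + (b' - a' ^ q) : Vinf A (N * 2 * q)) = 0 := Subtype.ext h0
    rw [h2, map_zero] at rs
    exact rz0 rs.symm
  have hWe : W' ((y * ⟨_, hinv⟩ : V2 A S0.hc) : FN (N * 2 * q)) =
      (((a' - b' ^ q) * ⟨_, hi⟩ : Vinf A (N * 2 * q)) : FN (N * 2 * q)) := by
    show W' (((a : FN (N * 2 * q)) - (b : FN (N * 2 * q)) ^ q) *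
      (((a : FN (N * 2 * q)) - (b : FN (N * 2 * q)) ^ q) +
        ((b : FN (N * 2 * q)) - (a : FN (N * 2 * q)) ^ q))⁻¹) =
      ((a' : FN (N * 2 * q)) - (b' : FN (N * 2 * q)) ^ q) *
      (((a' : FN (N * 2 * q)) - (b' : FN (N * 2 * q)) ^ q) +
        ((b' : FN (N * 2 * q)) - (a' : FN (N * 2 * q)) ^ q))⁻¹
    rw [map_mul, map_inv₀, map_add, map_sub, map_sub, map_pow, map_pow, ha', hb']
  refine ⟨by rw [hWe]; exact Subtype.mem _, ?_⟩
  have e2 : (⟨W' ((y * ⟨_, hinv⟩ : V2 A S0.hc) : FN (N * 2 * q)), by rw [hWe]; exact Subtype.mem _⟩ :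
      Vinf A (N * 2 * q)) = (a' - b' ^ q) * ⟨_, hi⟩ := Subtype.ext hWe
  rw [e2]
  have hmul : ((a' - b' ^ q) + (b' - a' ^ q)) * (⟨_, hi⟩ : Vinf A (N * 2 * q)) = 1 :=
    Subtype.ext (mul_inv_cancel₀ hs0)
  have h3 := congrArg (resInf A (N * 2 * q)) hmul
  rw [map_mul, map_one, rs] at h3
  rw [map_mul, h3]

/-- [K2c] `W'` preserves the maximal ideal of the Gauss valuation at `∞` -/
theorem resInf_W'_eq_zero (S0 : Setup (N * 2) q 2 A) (hq2 : q ≠ 2) (h : Nat.Coprime 2 N)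
    (W' : FN (N * 2 * q) ≃ₐ[Kb] FN (N * 2 * q))
    (hWa : ∀ x : FN (N * 2), W' (heckeAlphaBar Kb (N * 2) q x) =
      heckeAlphaBar Kb (N * 2) q (Wq h x))
    (hWb : ∀ x : FN (N * 2), W' (heckeBetaBar Kb (N * 2) q x) =
      heckeBetaBar Kb (N * 2) q (Wq h x))
    (δ : Vinf A (N * 2 * q)) (h0 : resInf A (N * 2 * q) δ = 0) :
    ∃ hW : W' (δ : FN (N * 2 * q)) ∈ Vinf A (N * 2 * q), resInf A (N * 2 * q) ⟨_, hW⟩ = 0 := by
  obtain ⟨e, he2, hWe, hWe1⟩ := exists_e' S0 hq2 h W' hWa hWb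
  obtain ⟨a, ha0, ha⟩ := Geo.absorbAux_scale (A := A) (Wq S0.hc (δ : FN (N * 2 * q)))
  have hWE : resInf A (N * 2 * q) ⟨Wq S0.hc (e : FN (N * 2 * q)), e.2.2⟩ = 0 := he2
  obtain ⟨a₀, ha₀, z, hz, e'⟩ := exists_smul_of_resInf_eq_zero hWE
  obtain ⟨n, a', hn⟩ := Arch.arch A S0.hq S0.hA a₀ ha₀ a ha0
  have e'' : Wq S0.hc (e : FN (N * 2 * q)) = algebraMap Kb (FN (N * 2 * q)) (a₀ : Kb) * z := e'
  have hn' : ((a₀ : Kb)) ^ n = (a : Kb) * (a' : Kb) := congrArg Subtype.val hn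
  have e2 : Wq S0.hc ((e : FN (N * 2 * q)) ^ (n + 1) * δ) =
      algebraMap Kb (FN (N * 2 * q)) (a₀ : Kb) * (algebraMap Kb (FN (N * 2 * q)) (a' : Kb) *
        z ^ (n + 1) * (algebraMap Kb (FN (N * 2 * q)) (a : Kb) *
          Wq S0.hc (δ : FN (N * 2 * q)))) := by
    rw [map_mul, map_pow, e'', mul_pow, ← map_pow, pow_succ, hn', map_mul, map_mul]
    ring
  have hY : algebraMap Kb (FN (N * 2 * q)) (a' : Kb) *
        z ^ (n + 1) * (algebraMap Kb (FN (N * 2 * q)) (a : Kb) *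
          Wq S0.hc (δ : FN (N * 2 * q))) ∈ Vinf A (N * 2 * q) :=
    mul_mem (mul_mem (algebraMap_mem_Vinf a') (pow_mem hz _)) ha
  have hmem : (e : FN (N * 2 * q)) ^ (n + 1) * δ ∈ V2 A S0.hc :=
    mem_V2.2 ⟨mul_mem (pow_mem e.2.1 _) δ.2, by
      rw [e2]; exact mul_mem (algebraMap_mem_Vinf a₀) hY⟩
  have hr1 : r1 A S0.hc ⟨_, hmem⟩ = 0 := by
    rw [r1_mk]
    have : (⟨(e : FN (N * 2 * q)) ^ (n + 1) * δ, hmem.1⟩ : Vinf A (N * 2 * q)) =
        ⟨e, e.2.1⟩ ^ (n + 1) * δ := rfl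
    rw [this, map_mul, h0, mul_zero]
  have hr2 : r2 A S0.hc ⟨_, hmem⟩ = 0 := by
    rw [r2_mk]
    exact resInf_smul_eq_zero ha₀ (y := ⟨_, hY⟩) e2
  obtain ⟨b, hb, y, hy, exy⟩ := V2_ker S0 ⟨_, hmem⟩ hr1 hr2
  rw [evE_C_M] at exy
  have exy' : (e : FN (N * 2 * q)) ^ (n + 1) * δ = algebraMap Kb (FN (N * 2 * q)) (b : Kb) * y := exy
  have hWy : W' y ∈ Vinf A (N * 2 * q) := (W'_mem_V2 S0 hq2 h W' hWa hy).1
  have hinv := inv_mem_Vinf (x := ⟨_, hWe⟩) (by rw [hWe1]; exact one_ne_zero)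
  have hWe0 : W' (e : FN (N * 2 * q)) ≠ 0 := by
    intro h1
    have : (⟨_, hWe⟩ : Vinf A (N * 2 * q)) = 0 := Subtype.ext h1
    rw [this, map_zero] at hWe1
    exact zero_ne_one hWe1
  have key : W' (δ : FN (N * 2 * q)) = algebraMap Kb (FN (N * 2 * q)) (b : Kb) *
      ((W' (e : FN (N * 2 * q)))⁻¹ ^ (n + 1) * W' y) := by
    have h1 : W' (e : FN (N * 2 * q)) ^ (n + 1) * W' (δ : FN (N * 2 * q)) =
        algebraMap Kb (FN (N * 2 * q)) (b : Kb) * W' y := by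
      rw [← map_pow, ← map_mul, exy', map_mul, AlgEquiv.commutes]
    have h2 : W' (e : FN (N * 2 * q)) ^ (n + 1) ≠ 0 := pow_ne_zero _ hWe0
    apply mul_left_cancel₀ h2
    rw [h1, inv_pow]
    field_simp
  have hZ : (W' (e : FN (N * 2 * q)))⁻¹ ^ (n + 1) * W' y ∈ Vinf A (N * 2 * q) :=
    mul_mem (pow_mem hinv _) hWy
  have hW : W' (δ : FN (N * 2 * q)) ∈ Vinf A (N * 2 * q) := by
    rw [key]; exact mul_mem (algebraMap_mem_Vinf b) hZ
  exact ⟨hW, resInf_smul_eq_zero hb (x := ⟨_, hW⟩) (y := ⟨_, hZ⟩) key⟩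

/-- [K2d] **(K2)** -/
theorem resInf_Wq_u1 (S0 : Setup (N * 2) q 2 A) (hq2 : q ≠ 2) (h : Nat.Coprime 2 N)
    (v0 : Vinf A (N * q)) (u1 : Vinf A (N * 2))
    (hu : resInf A (N * 2) u1 = resInf A (N * q) v0) :
    resInf A (N * 2) ⟨Wq h u1, Wq_mem_Vinf S0 hq2 h u1.2⟩ =
      qExpand (kA A) 2 (resInf A (N * q) v0) := by
  have hqN : ¬ q ∣ N := fun hd => S0.not_dvd (Dvd.dvd.mul_right hd 2)
  obtain ⟨W', hWa, hWb, hWc⟩ := exists_W' S0.hq hq2 hqN h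
  have hle : modularFunctionFieldBar (N * q) ≤ modularFunctionFieldBar (N * 2 * q) :=
    Descent.bar_le ⟨2, by ring⟩
  obtain ⟨a0, ha0def⟩ : ∃ a0 : FN (N * 2 * q), a0 = S35.incl hle (v0 : FN (N * q)) := ⟨_, rfl⟩
  have ca0 : (a0 : LaurentSeries Kb) = ((v0 : FN (N * q)) : LaurentSeries Kb) := by
    rw [ha0def, S35.coe_incl]
  obtain ⟨y1, y2, hQ⟩ := v0.2
  have hq0 : IsQuo A (N * 2 * q) a0 y1 y2 := ⟨by rw [ca0]; exact hQ.1, hQ.2⟩
  have ha0 : a0 ∈ Vinf A (N * 2 * q) := ⟨_, _, hq0⟩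
  have ra0 : resInf A (N * 2 * q) ⟨a0, ha0⟩ = resInf A (N * q) v0 := by
    rw [resInf_eq (x := ⟨a0, ha0⟩) hq0, resInf_eq hQ]
  have ha1 : heckeAlphaBar Kb (N * 2) q (u1 : FN (N * 2)) ∈ Vinf A (N * 2 * q) :=
    alpha_mem_Vinf u1.2
  have ra1 := resInf_alpha (q := q) u1
  have h0 : resInf A (N * 2 * q) (⟨_, ha1⟩ - ⟨a0, ha0⟩) = 0 := by
    rw [map_sub, ra1, ra0, hu, sub_self]
  obtain ⟨hW, hW0⟩ := resInf_W'_eq_zero S0 hq2 h W' hWa hWb _ h0
  have cW : ((W' a0 : FN (N * 2 * q)) : LaurentSeries Kb) =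
      qExpand Kb 2 ((v0 : FN (N * q)) : LaurentSeries Kb) := hWc v0 a0 ca0
  have hqW : IsQuo A (N * 2 * q) (W' a0) (qExpand A 2 y1) (qExpand A 2 y2) :=
    ⟨by rw [cW, coeffMap_qExpand, coeffMap_qExpand, ← map_mul, hQ.1], by
      rw [red_qExpand]; exact qExpand_ne_zero hQ.2⟩
  have hWa0 : W' a0 ∈ Vinf A (N * 2 * q) := ⟨_, _, hqW⟩
  have rWa0 : resInf A (N * 2 * q) ⟨W' a0, hWa0⟩ = qExpand (kA A) 2 (resInf A (N * q) v0) := by
    rw [resInf_eq (x := ⟨W' a0, hWa0⟩) hqW, resInf_eq hQ, red_qExpand, red_qExpand, map_div₀]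
  have hWu := Wq_mem_Vinf S0 hq2 h u1.2
  have e2 : (⟨_, hW⟩ : Vinf A (N * 2 * q)) =
      ⟨heckeAlphaBar Kb (N * 2) q (Wq h (u1 : FN (N * 2))), alpha_mem_Vinf hWu⟩ -
        ⟨W' a0, hWa0⟩ := by
    apply Subtype.ext
    show W' (heckeAlphaBar Kb (N * 2) q (u1 : FN (N * 2)) - a0) = _
    rw [map_sub, hWa]
    rfl
  rw [e2, map_sub, resInf_alpha (q := q) ⟨_, hWu⟩, rWa0, sub_eq_zero] at hW0
  exact hW0

end Fermat.Agent.S44.SP.Desc
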