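import Fermat.Agent.S34.Mod.Level
import Fermat.Agent.S37.NormQ

/-!
# S44 / SP-DESC, key (NM) : the reduction of the norm formula          (statement: helper10; key `S44/DESC-NM`)

`ℓ = 2`, `N` odd, `W = Wq h`, `Nm = normAlpha N 2 : FN (N * 2) → FN N`.  `S37.qExpand_normAlpha N 2 .. (Wq h) (Wq_alpha h) (Wq_beta h) ζ hζ x` with `ζ = -1`:
`(Nm x)(q²) = x(q²) * (W x)(q) * (W x)(-q)`.

Proof (~120 lines; NO modular input besides the formula).  `IsQuo A _ x y1 y2`, `IsQuo A _ (W x) z1 z2`.  With `B := qExpand A 2 y2 * z2 * twist (-1) z2`, `C := qExpand A 2 y1 * z1 * twist (-1) z1`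
(`ES.Alg.twist` over `A`, `coeffMap_twist`, `coeffMap_qExpand`, `S37.twistFun_eq_twist`): `qExpand Kb 2 (Nm x) * coe B = coe C`, `red B ≠ 0`.
If `Nm x = 0` trivial.  Otherwise `exists_unit_scale (Nm x)` : `Nm x = c * w`, `IsQuo w w1 w2`, `red w1 ≠ 0`.  So `c * coe (qExpand A 2 w1 * B) = coe (C * qExpand A 2 w2)`, and
`ES.Alg.mem_of_mul_eq` gives `c ∈ A`; hence `Nm x ∈ Vinf A N` with `IsQuo (Nm x) (C c * w1) w2`, and reducing the identity: `qExpand k 2 (resInf (Nm x)) * red B = red C`.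
-/

set_option autoImplicit false
set_option synthInstance.maxHeartbeats 400000

open HahnSeries ModularCurve AlgebraicCurve Polynomial Fermat.Agent.S24 Fermat.Agent.S29
  Fermat.Agent.S18 Fermat.Agent.ES Fermat.Agent.ES.Alg Fermat.Agent.S34.Mod

noncomputable section

namespace Fermat.Agent.S44.SP.Desc

variable {N : ℕ} [NeZero N] {A : ValuationSubring Kb}

theorem nmAux {f : FN N} {B C : LaurentSeries A} (hB : red A B ≠ 0)
    (h : qExpand Kb 2 (f : LaurentSeries Kb) * coeffMap A.subtype B = coeffMap A.subtype C) :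
    ∃ hf : f ∈ Vinf A N, qExpand (kA A) 2 (resInf A N ⟨f, hf⟩) = red A C / red A B := by
  by_cases hf0 : f = 0
  · subst hf0
    refine ⟨zero_mem _, ?_⟩
    have hC : C = 0 := by
      apply Alg.coeffMap_subtype_injective
      rw [← h]
      simp
    have h0 : (⟨0, zero_mem _⟩ : Vinf A N) = 0 := rfl
    rw [h0, map_zero, map_zero, hC, map_zero, zero_div]
  obtain ⟨c, w, w1, w2, hc, hfw, hw, hw1, -, -⟩ := exists_unit_scale (A := A) f hf0
  have e : ((algebraMap Kb (FN N) c * w : FN N) : LaurentSeries Kb) =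
      algebraMap Kb (LaurentSeries Kb) c * (w : LaurentSeries Kb) := rfl
  have hqc : qExpand Kb 2 (algebraMap Kb (LaurentSeries Kb) c) =
      algebraMap Kb (LaurentSeries Kb) c := by
    rw [algebraMap_laurentSeries_eq_single, qExpand_single, mul_zero]
  have hqw : qExpand Kb 2 (w : LaurentSeries Kb) * coeffMap A.subtype (qExpand A 2 w2) =
      coeffMap A.subtype (qExpand A 2 w1) := by
    rw [coeffMap_qExpand, coeffMap_qExpand, ← map_mul, hw.1]
  have hcA : c ∈ A := by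
    apply mem_of_mul_eq (U := qExpand A 2 w1 * B) (V := C * qExpand A 2 w2)
    · rw [map_mul, red_qExpand]
      exact mul_ne_zero (qExpand_ne_zero hw1) hB
    · rw [map_mul, map_mul, ← hqw, ← h, hfw, e, map_mul, hqc]
      ring
  have hq : IsQuo A N f (HahnSeries.single 0 (⟨c, hcA⟩ : A) * w1) (1 * w2) := by
    rw [hfw]
    exact (IsQuo.const (⟨c, hcA⟩ : A)).mul hw
  rw [one_mul] at hq
  refine ⟨⟨_, _, hq⟩, ?_⟩
  obtain ⟨n1, hn1⟩ : ∃ n1, n1 = HahnSeries.single 0 (⟨c, hcA⟩ : A) * w1 := ⟨_, rfl⟩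
  rw [← hn1] at hq
  rw [resInf_eq (x := ⟨f, _, _, hq⟩) hq, map_div₀, ← red_qExpand, ← red_qExpand,
    div_eq_div_iff (by rw [red_qExpand]; exact qExpand_ne_zero hq.2) hB, ← map_mul, ← map_mul]
  congr 1
  apply Alg.coeffMap_subtype_injective
  rw [map_mul, map_mul, ← h, coeffMap_qExpand, coeffMap_qExpand, ← hq.1, map_mul]
  ring

theorem nmUnits : Units.map ((A.subtype : A →+* Kb) : A →* Kb) (-1) = -1 := by
  ext
  simp

theorem nmUnits' : Units.map ((IsLocalRing.residue A : A →+* kA A) : A →* kA A) (-1) = -1 := by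
  ext
  simp

/-- **(NM)** -/
theorem resInf_normAlpha (h : Nat.Coprime 2 N) (x : Vinf A (N * 2))
    (hW : Wq h (x : FN (N * 2)) ∈ Vinf A (N * 2)) :
    ∃ hy : normAlpha N 2 (x : FN (N * 2)) ∈ Vinf A N,
      qExpand (kA A) 2 (resInf A N ⟨_, hy⟩) =
        qExpand (kA A) 2 (resInf A (N * 2) x) *
          (resInf A (N * 2) ⟨_, hW⟩ * twist (-1 : (kA A)ˣ) (resInf A (N * 2) ⟨_, hW⟩)) := by
  obtain ⟨y1, y2, hy⟩ := x.2
  obtain ⟨z1, z2, hz⟩ := hW
  have hN : ¬ 2 ∣ N := by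
    intro h2
    have := Nat.Coprime.eq_one_of_dvd h h2
    omega
  have hζ : IsPrimitiveRoot (-1 : Kbˣ) 2 := by
    have h1 : IsPrimitiveRoot (-1 : Kb) 2 := IsPrimitiveRoot.neg_one 0 (by norm_num)
    exact IsPrimitiveRoot.of_map_of_injective (f := Units.coeHom Kb) (by simpa using h1)
      Units.val_injective
  have F := S37.qExpand_normAlpha N 2 Nat.prime_two hN (Wq h) (Wq_alpha h) (Wq_beta h) (-1) hζ
    (x : FN (N * 2))
  rw [Finset.prod_range_succ, Finset.prod_range_one, pow_zero, pow_one, S37.twistFun_eq_twist,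
    S37.twistFun_eq_twist, twist_one] at F
  have hB : red A (qExpand A 2 y2 * (z2 * twist (-1 : Aˣ) z2)) ≠ 0 := by
    rw [map_mul, map_mul, red_qExpand]
    refine mul_ne_zero (qExpand_ne_zero hy.2) (mul_ne_zero hz.2 ?_)
    show ModularCurve.coeffMap _ _ ≠ 0
    rw [coeffMap_twist]
    intro h0
    exact hz.2 (twist_injective _ (by rw [h0, map_zero]))
  obtain ⟨hf, hf2⟩ := nmAux (f := normAlpha N 2 (x : FN (N * 2))) (C := qExpand A 2 y1 * (z1 * twist (-1 : Aˣ) z1)) hB (by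
    have F' : qExpand Kb 2 ((normAlpha N 2 (x : FN (N * 2)) : FN N) : LaurentSeries Kb) = _ := F
    rw [F', map_mul, map_mul, map_mul, map_mul, coeffMap_qExpand, coeffMap_qExpand, ← hy.1,
      coeffMap_twist, coeffMap_twist, ← hz.1, nmUnits, map_mul, map_mul]
    ring)
  refine ⟨hf, ?_⟩
  rw [hf2, resInf_eq hy, resInf_eq (x := ⟨Wq h (x : FN (N * 2)), _, _, hz⟩) hz, map_div₀, map_div₀,
    map_mul, map_mul, map_mul, map_mul, red_qExpand, red_qExpand]
  have e1 : ∀ z : LaurentSeries A, red A (twist (-1 : Aˣ) z) = twist (-1 : (kA A)ˣ) (red A z) := by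
    intro z
    show ModularCurve.coeffMap _ _ = _
    rw [coeffMap_twist, nmUnits']
  rw [e1, e1]
  rw [div_mul_div_comm, div_mul_div_comm]

end Fermat.Agent.S44.SP.Desc
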