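import Fermat.Agent.S34.Mod.Level
import Fermat.Agent.ES.AtkinLehner

/-!
# S44 / SP-DESC, key (T) : `W₂ t₂ = ± 2^12 / t₂`          (statement: helper10; key `S44/DESC-T`)

`N` odd, level `N * 2`, `t = tauF (haupt (N * 2) 2 ..)` the Hauptmodul of `Γ₀(2)`, `W = Wq h` the Atkin-Lehner involution at `2`.

Proof (analytic, ~60 lines).  `Wq h = (ES.exists_atkinLehner N 2 h).choose`; the LAST clause of `ES.exists_atkinLehner` gives `γ : SL(2,ℤ)` with `2 ∣ γ 1 1` and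
`iota (N*2) (W x) = merComp (phi γ 2) .. (iota (N*2) x)`, `phi γ 2 z = γ • scaleH 2 z`.
`iota t = algebraMap Hol Mer (tH 2)` (`(corr_tauF ..).iota_eq`, `(haupt ..).tA = tA ..`, `.1 = tH 2`), `merComp_algebraMap`.
`γ = γ' * S` with `γ' := γ * S⁻¹`, `γ' 1 0 = - γ 1 1`, so `2 ∣ γ' 1 0` and `tFun 2 (γ • w) = tFun 2 (S • w)` (`tFun_smul_of_dvd`);
`S • scaleH 2 z = frW 2 z` (definition) and `HauptAux.exists_sign` : `tFun 2 (frW 2 z) * tFun 2 z = s * cE 2`, `s = ± 1`, `cE 2 = 2^12`.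
So `iota (W t * t) = algebraMap ℂ Mer (s * 2^12) = iota (algebraMap Kb _ (s * 2^12))` (`iota_algebraMap`), and `iota` is injective.
-/

set_option autoImplicit false
set_option synthInstance.maxHeartbeats 400000

open HahnSeries ModularCurve AlgebraicCurve Fermat.Agent.S24 Fermat.Agent.S29 Fermat.Agent.S18
  Fermat.Agent.ES Fermat.Agent.ES.Alg Fermat.Agent.S34.Mod

noncomputable section

namespace Fermat.Agent.S44.SP.Desc

/-- **(T)** -/
theorem Wq_tauF {N : ℕ} [NeZero N] (h : Nat.Coprime 2 N) (hr : (2 : ℕ) = 2 ∨ (2 : ℕ) = 3)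
    (hrM : 2 ∣ N * 2) :
    ∃ c : ℤ, (c = 2 ^ 12 ∨ c = -2 ^ 12) ∧
      Wq h (tauF (haupt (N * 2) 2 hr hrM) hrM) * tauF (haupt (N * 2) 2 hr hrM) hrM =
        algebraMap Kb (FN (N * 2)) (c : Kb) := by
  obtain ⟨s, hs, hsign⟩ := HauptAux.exists_sign 2 (Or.inl rfl)
  obtain ⟨γ, -, hγ, hio⟩ := (exists_atkinLehner N 2 h).choose_spec.2.2.2
  refine ⟨s * 2 ^ 12, ?_, ?_⟩
  · rcases hs with rfl | rfl
    · left; ring
    · right; ring
  apply (iota (N * 2)).injective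
  have h1 : iota (N * 2) (Wq h (tauF (haupt (N * 2) 2 hr hrM) hrM)) =
      AL.merComp (AL.phi γ 2) (AL.mdiff_phi γ 2) (AL.phi_surjective γ 2)
        (iota (N * 2) (tauF (haupt (N * 2) 2 hr hrM) hrM)) := hio _
  rw [map_mul, iota_algebraMap, h1, (corr_tauF (haupt (N * 2) 2 hr hrM) hrM).iota_eq,
    AL.merComp_algebraMap, ← map_mul, IsScalarTower.algebraMap_apply ℂ Hol Mer]
  congr 1
  apply Subtype.ext
  funext τ
  show tFun 2 (AL.phi γ 2 τ) * tFun 2 τ = kappa ((s * 2 ^ 12 : ℤ) : Kb)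
  have h2 : tFun 2 (AL.phi γ 2 τ) = tFun 2 (HauptAux.frW 2 τ) := by
    have e : γ = (γ * ModularGroup.S⁻¹) * ModularGroup.S := by group
    have h3 : AL.phi γ 2 τ = (γ * ModularGroup.S⁻¹) • HauptAux.frW 2 τ := by
      show γ • scaleH 2 τ = (γ * ModularGroup.S⁻¹) • (ModularGroup.S • scaleH 2 τ)
      rw [← mul_smul, ← e]
    rw [h3]
    refine tFun_smul_of_dvd 2 (Or.inl rfl) _ ?_ _
    have h4 : (γ * ModularGroup.S⁻¹) 1 0 = - γ 1 1 := by
      rw [Matrix.SpecialLinearGroup.coe_mul, Matrix.mul_apply, Fin.sum_univ_two,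
        Matrix.SpecialLinearGroup.SL2_inv_expl]
      simp [ModularGroup.S]
    rw [h4]
    exact (dvd_neg).2 hγ
  rw [h2, hsign τ, map_intCast]
  have h5 : (cE 2 : ℕ) = 2 ^ 12 := by
    norm_num [cE]
  rw [h5]
  push_cast
  ring

end Fermat.Agent.S44.SP.Desc
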