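import Fermat.Agent.S44.SP.Desc.T
import Fermat.Agent.S34.Mod.Good

/-!
# S44 / SP-DESC, key (VVW) : `W₂` preserves the Gauss rings          (statement: helper10; proofs: helper1; key `S44/DESC-VVW`)

NOTE (helper1): `map_mem_of_mem_VV` got the extra hypothesis `h0` (primitive polynomials do not vanish at `τ`); without it the statement is false for algebraic `τ`.

`N` odd, `S0 : Setup (N * 2) q 2 A`, `W = Wq h` (`h : Coprime 2 N`) on `FN (N * 2)`, `W'` an automorphism of `FN (N * 2 * q)` with `W' ∘ α_q = α_q ∘ W`.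

* `map_mem_of_mem_VV` (abstract, ~40 lines): `x ∈ VV`: `S`, `y = evE S * x ∈ C0`, i.e. `(evE A τ E).IsIntegralElem y`: `⟨p, monic, eval₂ (evE) y p = 0⟩`.
  `g : A[X] →+* R := (W.comp (evE A τ E)).codRestrict R h1`; `p.map g` is monic and `eval₂ R.subtype (W y) (p.map g) = W (eval₂ evE y p) = 0`
  (`Polynomial.eval₂_map`, `Polynomial.hom_eval₂`).  So `W y ∈ R`, and `W x = (W (evE S))⁻¹ * W y`.
* `Wq_evE_mem` : `W (evE τ1 P) = eval₂ (algebraMap) (W t1) P`, `W t1 = c * t1⁻¹` (`Wq_tauF`), whose `q`-expansion is `c * tqInv Kb 2`: `IntRed A _ (W t1) (C c̄ * tqInv k 2)`,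
  so `IntRed A _ (W (evE τ1 P)) (eval₂ C (C c̄ * tqInv k 2) (redP P))` (induction on `P`, or as `intRed_evE`), which is `≠ 0` if `redP P ≠ 0`:
  `C c̄ * tqInv k 2` is transcendental over `k` (its inverse `c̄⁻¹ tq` has negative order: `transcendental_of_order_neg`, `IsAlgebraic.inv`); `c̄ ≠ 0` since `q ≠ 2`.
  Then `mem_Vinf_of_intRed`, `inv_mem_Vinf`.
* `Wq_mem_Vinf` : `Vinf A (N*2) ≤ VV A S0.τ1 _` (`S18.mem_VV_of_quot`), `map_mem_of_mem_VV` with `R = Vinf` (`mem_Vinf_of_isIntegral`).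
* `resInf_Wq_eq_zero` : `exists_smul_of_resInf_eq_zero`, `AlgEquiv.commutes`, `resInf_smul_eq_zero`.
* `W'_mem_V2` : `V2 = VV A S0.τM _` (`VV_eq`), `R = V2` (`V2_closed`), `evE τM P = α_q (evE τ1 P)` (`alpha_evE`), `W' (α_q y) = α_q (W y)`, `alpha_mem_V2`, `Wq_mem_Vinf` applied to
  `evE τ1 P` and to `(evE τ1 P)⁻¹` (`evE1_mem_Vinf`; the inverse as in `inv_evE_mem_Vinf`).
-/

set_option autoImplicit false
set_option synthInstance.maxHeartbeats 400000

open HahnSeries ModularCurve AlgebraicCurve Polynomial Fermat.Agent.S24 Fermat.Agent.S29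
  Fermat.Agent.S18 Fermat.Agent.ES Fermat.Agent.ES.Alg Fermat.Agent.S34.Mod

noncomputable section

namespace Fermat.Agent.S44.SP.Desc

/-- abstract: a ring hom which maps `A[τ]` into an integrally closed subring `R`, and the primitive polynomials to units of `R`, maps `VV` into `R` -/
theorem map_mem_of_mem_VV {K : Type*} [Field K] (A : ValuationSubring K) {L : Type*} [Field L]
    [Algebra K L] (τ : L) {E : Type*} [Field E] [Algebra L E] (R : Subring E)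
    (hR : ∀ x, R.subtype.IsIntegralElem x → x ∈ R) (W : E →+* E)
    (h0 : ∀ P : (↥A)[X], KL.redP A P ≠ 0 → KL.evE A τ E P ≠ 0)
    (h1 : ∀ P : (↥A)[X], W (KL.evE A τ E P) ∈ R)
    (h2 : ∀ P : (↥A)[X], KL.redP A P ≠ 0 → (W (KL.evE A τ E P))⁻¹ ∈ R) {x : E}
    (hx : x ∈ KL.VV A τ E) : W x ∈ R := by
  obtain ⟨S, hS, p, hp, hp0⟩ := hx
  have hWy : W (KL.evE A τ E S * x) ∈ R := by
    apply hR
    refine ⟨p.map ((W.comp (KL.evE A τ E)).codRestrict R h1), hp.map _, ?_⟩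
    rw [Polynomial.eval₂_map]
    have e : R.subtype.comp ((W.comp (KL.evE A τ E)).codRestrict R h1) =
        W.comp (KL.evE A τ E) := RingHom.ext fun _ => rfl
    rw [e, ← Polynomial.hom_eval₂, hp0, map_zero]
  have hne : W (KL.evE A τ E S) ≠ 0 := (_root_.map_ne_zero W).2 (h0 S hS)
  have e : W x = (W (KL.evE A τ E S))⁻¹ * W (KL.evE A τ E S * x) := by
    rw [map_mul, ← mul_assoc, inv_mul_cancel₀ hne, one_mul]
  rw [e]
  exact mul_mem (h2 S hS) hWy

variable {N q : ℕ} [NeZero N] [NeZero q] {A : ValuationSubring Kb}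

/-- constants `A → Vinf` -/
def cV (A : ValuationSubring Kb) (M : ℕ) [NeZero M] : A →+* Vinf A M :=
  ((algebraMap Kb (FN M)).comp A.subtype).codRestrict (Vinf A M) fun a => algebraMap_mem_Vinf a

theorem vvwAux_trans {k : Type} [Field k] {s : LaurentSeries k} {c : k} (hc : c ≠ 0)
    (hs : s = HahnSeries.C c * (tq k 2)⁻¹) {Q : k[X]}
    (hQ : Polynomial.eval₂ (HahnSeries.C : k →+* LaurentSeries k) s Q = 0) : Q = 0 := by
  by_contra hQ0
  have htr : Transcendental k (tq k 2) := transcendental_of_order_neg (order_tq_neg k 2)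
  have htq0 : tq k 2 ≠ 0 := by
    intro h0
    have := order_tq_neg k 2
    rw [h0, HahnSeries.order_zero] at this
    exact lt_irrefl _ this
  have hC : (HahnSeries.C : k →+* LaurentSeries k) = algebraMap k (LaurentSeries k) := by
    ext c : 1
    rw [algebraMap_laurent_eq_single]
    rfl
  have halg : IsAlgebraic k s := ⟨Q, hQ0, by rw [aeval_def, ← hC]; exact hQ⟩
  have hC0 : (HahnSeries.C c : LaurentSeries k) ≠ 0 :=
    (map_ne_zero_iff _ HahnSeries.C_injective).2 hc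
  have e : tq k 2 = algebraMap k (LaurentSeries k) c * s⁻¹ := by
    rw [hs, ← hC, mul_inv, inv_inv, ← mul_assoc, mul_inv_cancel₀ hC0, one_mul]
  apply htr
  rw [e]
  exact (isAlgebraic_algebraMap c).mul halg.inv

/-- `W t1 = c / t1` is a unit of `Vinf`, with reduction `c̄ / t̄` -/
theorem exists_Wq_t1 (S0 : Setup (N * 2) q 2 A) (hq2 : q ≠ 2) (h : Nat.Coprime 2 N) :
    ∃ (s : Vinf A (N * 2)) (c : kA A), (s : FN (N * 2)) = Wq h S0.t1 ∧ c ≠ 0 ∧ c ^ q = c ∧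
      resInf A (N * 2) s = HahnSeries.C c * (tq (kA A) 2)⁻¹ := by
  obtain ⟨c, hc, hW⟩ := Wq_tauF h S0.hr S0.hr1
  have hW' : Wq h S0.t1 * S0.t1 = algebraMap Kb (FN (N * 2)) (c : Kb) := hW
  have htq0 : tq (kA A) 2 ≠ 0 := by
    intro h0
    have := order_tq_neg (kA A) 2
    rw [h0, HahnSeries.order_zero] at this
    exact lt_irrefl _ this
  have hr0 : resInf A (N * 2) ⟨S0.t1, t1_mem_Vinf S0⟩ ≠ 0 := by rw [resInf_t1]; exact htq0
  have hti : (S0.t1)⁻¹ ∈ Vinf A (N * 2) := inv_mem_Vinf (x := ⟨S0.t1, t1_mem_Vinf S0⟩) hr0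
  have ht0 : S0.t1 ≠ 0 := by
    intro h0
    apply hr0
    have : (⟨S0.t1, t1_mem_Vinf S0⟩ : Vinf A (N * 2)) = 0 := Subtype.ext h0
    rw [this, map_zero]
  have hrti : resInf A (N * 2) ⟨(S0.t1)⁻¹, hti⟩ = (tq (kA A) 2)⁻¹ := by
    have e : (⟨(S0.t1)⁻¹, hti⟩ : Vinf A (N * 2)) * ⟨S0.t1, t1_mem_Vinf S0⟩ = 1 :=
      Subtype.ext (inv_mul_cancel₀ ht0)
    have := congrArg (resInf A (N * 2)) e
    rw [map_mul, map_one, resInf_t1] at this
    exact eq_inv_of_mul_eq_one_left this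
  have hchar : CharP (kA A) q := charP_kA S0.hq S0.hA
  have hfact : Fact q.Prime := ⟨S0.hq⟩
  refine ⟨cV A (N * 2) (c : A) * ⟨(S0.t1)⁻¹, hti⟩, IsLocalRing.residue A (c : A), ?_, ?_, ?_, ?_⟩
  · show algebraMap Kb (FN (N * 2)) (((c : A) : A) : Kb) * (S0.t1)⁻¹ = _
    rw [eq_comm, eq_mul_inv_iff_mul_eq₀ ht0, hW']
    congr 1
  · rw [map_intCast, Ne, CharP.intCast_eq_zero_iff (kA A) q]
    intro hd
    have h2 : (q : ℤ) ∣ 2 ^ 12 := by
      rcases hc with rfl | rfl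
      · exact hd
      · exact (dvd_neg.mp hd)
    have h3 : q ∣ 2 ^ 12 := by exact_mod_cast h2
    have h4 := S0.hq.dvd_of_dvd_pow h3
    exact hq2 ((Nat.prime_dvd_prime_iff_eq S0.hq Nat.prime_two).1 h4)
  · rw [map_intCast, ← frobenius_def, map_intCast]
  · rw [map_mul, hrti]
    congr 1
    exact resInf_algebraMap (c : A)

theorem Wq_evE_mem (S0 : Setup (N * 2) q 2 A) (hq2 : q ≠ 2) (h : Nat.Coprime 2 N) (P : (↥A)[X]) :
    Wq h (KL.evE A S0.τ1 (FN (N * 2)) P) ∈ Vinf A (N * 2) ∧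
      (KL.redP A P ≠ 0 → (Wq h (KL.evE A S0.τ1 (FN (N * 2)) P))⁻¹ ∈ Vinf A (N * 2)) := by
  obtain ⟨s, cb, hs, hcbar, -, hrs⟩ := exists_Wq_t1 S0 hq2 h
  have hψ : ∀ P : (↥A)[X], ((Polynomial.eval₂RingHom (cV A (N * 2)) s P : Vinf A (N * 2)) :
      FN (N * 2)) = Wq h (KL.evE A S0.τ1 (FN (N * 2)) P) := by
    have e : (Vinf A (N * 2)).subtype.comp (Polynomial.eval₂RingHom (cV A (N * 2)) s) =
        ((Wq h : FN (N * 2) ≃ₐ[Kb] FN (N * 2)) : FN (N * 2) →+* FN (N * 2)).comp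
          (KL.evE A S0.τ1 (FN (N * 2))) := by
      apply Polynomial.ringHom_ext
      · intro a
        simp only [RingHom.comp_apply, KL.evE, KL.evL, coe_eval₂RingHom, eval₂_C]
        exact ((Wq h).commutes (a : Kb)).symm
      · simp only [RingHom.comp_apply, KL.evE, KL.evL, coe_eval₂RingHom, eval₂_X]
        exact hs
    exact fun P => DFunLike.congr_fun e P
  have hres : ∀ P : (↥A)[X], resInf A (N * 2) (Polynomial.eval₂RingHom (cV A (N * 2)) s P) =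
      Polynomial.eval₂ (HahnSeries.C : kA A →+* LaurentSeries (kA A)) (resInf A (N * 2) s)
        (KL.redP A P) := by
    have e : (resInf A (N * 2)).comp (Polynomial.eval₂RingHom (cV A (N * 2)) s) =
        (Polynomial.eval₂RingHom (HahnSeries.C : kA A →+* LaurentSeries (kA A))
          (resInf A (N * 2) s)).comp (KL.redP A) := by
      apply Polynomial.ringHom_ext
      · intro a
        simp only [RingHom.comp_apply, KL.redP, coe_eval₂RingHom, eval₂_C, coe_mapRingHom,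
          Polynomial.map_C]
        exact resInf_algebraMap a
      · simp only [RingHom.comp_apply, KL.redP, coe_eval₂RingHom, eval₂_X, coe_mapRingHom,
          Polynomial.map_X]
    exact fun P => DFunLike.congr_fun e P
  refine ⟨by rw [← hψ]; exact Subtype.mem _, fun hP => ?_⟩
  rw [← hψ]
  apply inv_mem_Vinf
  rw [hres]
  exact fun h0 => hP (vvwAux_trans hcbar hrs h0)

theorem evE1_ne_zero_of_red {M1 r : ℕ} [NeZero M1] [NeZero r] (S : Setup M1 q r A) {P : (↥A)[X]}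
    (hP : KL.redP A P ≠ 0) : KL.evE A S.τ1 (FN M1) P ≠ 0 := by
  intro h
  have h1 := resInf_evE1 S P
  have h2 : (⟨_, evE1_mem_Vinf S P⟩ : Vinf A M1) = 0 := Subtype.ext h
  rw [h2, map_zero] at h1
  exact evk_ne_zero hP h1.symm

/-- **(W1)** -/
theorem Wq_mem_Vinf (S0 : Setup (N * 2) q 2 A) (hq2 : q ≠ 2) (h : Nat.Coprime 2 N)
    {x : FN (N * 2)} (hx : x ∈ Vinf A (N * 2)) : Wq h x ∈ Vinf A (N * 2) :=
  map_mem_of_mem_VV A S0.τ1 (Vinf A (N * 2)) (fun _ hx => mem_Vinf_of_isIntegral hx)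
    ((Wq h : FN (N * 2) ≃ₐ[Kb] FN (N * 2)) : FN (N * 2) →+* FN (N * 2))
    (fun _ hP => evE1_ne_zero_of_red S0 hP)
    (fun P => (Wq_evE_mem S0 hq2 h P).1) (fun P hP => (Wq_evE_mem S0 hq2 h P).2 hP)
    ((VV1_eq S0).ge hx)

theorem resInf_Wq_eq_zero (S0 : Setup (N * 2) q 2 A) (hq2 : q ≠ 2) (h : Nat.Coprime 2 N)
    (x : Vinf A (N * 2)) (h0 : resInf A (N * 2) x = 0) :
    resInf A (N * 2) ⟨Wq h x, Wq_mem_Vinf S0 hq2 h x.2⟩ = 0 := by
  obtain ⟨a, ha, y, hy, e⟩ := exists_smul_of_resInf_eq_zero h0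
  refine resInf_smul_eq_zero ha (y := ⟨Wq h y, Wq_mem_Vinf S0 hq2 h hy⟩) ?_
  show Wq h (x : FN (N * 2)) = algebraMap Kb (FN (N * 2)) (a : Kb) * Wq h y
  rw [e, map_mul, AlgEquiv.commutes]

/-- **(W2)** -/
theorem W'_mem_V2 (S0 : Setup (N * 2) q 2 A) (hq2 : q ≠ 2) (h : Nat.Coprime 2 N)
    (W' : FN (N * 2 * q) ≃ₐ[Kb] FN (N * 2 * q))
    (hW' : ∀ x : FN (N * 2), W' (heckeAlphaBar Kb (N * 2) q x) =
      heckeAlphaBar Kb (N * 2) q (Wq h x))
    {x : FN (N * 2 * q)} (hx : x ∈ V2 A S0.hc) : W' x ∈ V2 A S0.hc := by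
  refine map_mem_of_mem_VV A S0.τM (V2 A S0.hc) (V2_closed S0)
    ((W' : FN (N * 2 * q) ≃ₐ[Kb] FN (N * 2 * q)) : FN (N * 2 * q) →+* FN (N * 2 * q))
    (fun _ hP => evE_ne_zero_of_red S0 hP) (fun P => ?_) (fun P hP => ?_) ((VV_eq S0).ge hx)
  · show W' (KL.evE A S0.τM (FN (N * 2 * q)) P) ∈ _
    rw [← alpha_evE S0, hW']
    exact alpha_mem_V2 S0 (Wq_evE_mem S0 hq2 h P).1
  · show (W' (KL.evE A S0.τM (FN (N * 2 * q)) P))⁻¹ ∈ _
    rw [← alpha_evE S0, hW', ← map_inv₀]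
    exact alpha_mem_V2 S0 ((Wq_evE_mem S0 hq2 h P).2 hP)

end Fermat.Agent.S44.SP.Desc
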